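import Fermat.Agent.S26.T6.CbInt

/-!
# S26 / T6 / CB-1b : exchange `K[s] ↔ K[1/s]`; global functions are constant
-/

set_option autoImplicit false

universe u

namespace Fermat.Agent.S26

open scoped IntermediateField.algebraAdjoinAdjoin
open Polynomial

variable {K : Type u} [Field K] [IsAlgClosed K]

theorem cb_adjoin_inv {F : Type u} [Field F] [Algebra K F] (s : F) :
    IntermediateField.adjoin K {s⁻¹} = IntermediateField.adjoin K {s} := by
  apply le_antisymm
  · rw [IntermediateField.adjoin_simple_le_iff]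
    exact inv_mem (IntermediateField.mem_adjoin_simple_self K s)
  · rw [IntermediateField.adjoin_simple_le_iff]
    have := inv_mem (IntermediateField.mem_adjoin_simple_self K s⁻¹)
    rwa [inv_inv] at this

/-- an element of `K[s]` times a large power of `1/s` lies in `K[1/s]`. -/
theorem cbExch_mul_pow_mem {F : Type u} [Field F] [Algebra K F] (s : F) (hs : s ≠ 0)
    (a : Algebra.adjoin K {s}) :
    ∃ N : ℕ, ∀ N', N ≤ N' → (a : F) * s⁻¹ ^ N' ∈ Algebra.adjoin K {s⁻¹} := by
  obtain ⟨p, rfl⟩ := cbIntPoly_surjective (K := K) s a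
  refine ⟨p.natDegree, fun N' hN' => ?_⟩
  rw [cbIntPoly_coe, aeval_eq_sum_range, Finset.sum_mul]
  refine Subalgebra.sum_mem _ fun i hi => ?_
  have hi' : i ≤ N' := (Nat.lt_succ_iff.1 (Finset.mem_range.1 hi)).trans hN'
  have : p.coeff i • s ^ i * s⁻¹ ^ N' = p.coeff i • s⁻¹ ^ (N' - i) := by
    obtain ⟨k, rfl⟩ := Nat.exists_eq_add_of_le hi'
    rw [Nat.add_sub_cancel_left, pow_add, smul_mul_assoc, ← mul_assoc, ← mul_pow,
      mul_inv_cancel₀ hs, one_pow, one_mul]
  rw [this]
  exact Subalgebra.smul_mem _ (Subalgebra.pow_mem _ (Algebra.self_mem_adjoin_singleton K _) _) _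

theorem cbInt_exchange {F : Type u} [Field F] [Algebra K F] (s : F) (hs : s ≠ 0) (b : F)
    (hb : b ∈ cbInt K s) : ∃ N : ℕ, b * s⁻¹ ^ N ∈ cbInt K s⁻¹ := by
  obtain ⟨P, hP, hPb⟩ := hb
  choose Nf hNf using cbExch_mul_pow_mem (K := K) s hs
  set N := (Finset.range (P.natDegree + 1)).sup (fun i => Nf (P.coeff i)) with hN
  refine ⟨N, ?_⟩
  set PF : F[X] := P.map (algebraMap (Algebra.adjoin K {s}) F) with hPF
  have hPFm : PF.Monic := hP.map _
  have hdeg : PF.natDegree = P.natDegree := hP.natDegree_map _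
  have hl : scaleRoots PF (s⁻¹ ^ N) ∈ Polynomial.lifts (algebraMap (Algebra.adjoin K {s⁻¹}) F) := by
    rw [Polynomial.lifts_iff_coeff_lifts]
    intro i
    rw [coeff_scaleRoots]
    by_cases hi : i < PF.natDegree
    · obtain ⟨k, hk⟩ : ∃ k, PF.natDegree - i = k + 1 := ⟨PF.natDegree - i - 1, by omega⟩
      rw [hk, ← pow_mul, hPF, coeff_map]
      have h1 : Nf (P.coeff i) ≤ N * (k + 1) := by
        have : Nf (P.coeff i) ≤ N :=
          Finset.le_sup (f := fun i => Nf (P.coeff i)) (Finset.mem_range.2 (by omega))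
        nlinarith
      exact ⟨⟨_, hNf (P.coeff i) _ h1⟩, rfl⟩
    · rcases (not_lt.1 hi).eq_or_lt with h | h
      · rw [← h, Nat.sub_self, pow_zero, mul_one, hPFm.coeff_natDegree]
        exact ⟨1, map_one _⟩
      · rw [coeff_eq_zero_of_natDegree_lt h, zero_mul]
        exact ⟨0, map_zero _⟩
  obtain ⟨Q, hQ, -, hQm⟩ := Polynomial.lifts_and_natDegree_eq_and_monic hl
    ((monic_scaleRoots_iff _).2 hPFm)
  refine ⟨Q, hQm, ?_⟩
  rw [← Polynomial.eval_map, hQ, mul_comm b]
  have := scaleRoots_eval₂_mul (p := PF) (RingHom.id F) b (s⁻¹ ^ N)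
  rw [RingHom.id_apply, eval₂_id, eval₂_id] at this
  rw [this, hPF, eval_map, hPb, mul_zero]

/-- `K[s] ∩ K[1/s] = K`. -/
theorem cbExch_inter {F : Type u} [Field F] [Algebra K F] (s : F) (hs : Transcendental K s)
    (x : F) (hx : x ∈ Algebra.adjoin K {s}) (hx' : x ∈ Algebra.adjoin K {s⁻¹}) :
    ∃ c : K, x = algebraMap K F c := by
  have hs0 : s ≠ 0 := by
    rintro rfl
    exact hs (isAlgebraic_zero)
  rw [Algebra.adjoin_singleton_eq_range_aeval] at hx hx'
  obtain ⟨p, rfl⟩ := hx
  obtain ⟨q, hq⟩ := hx'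
  have hq' : aeval s⁻¹ q = aeval s p := hq
  let _ : Invertible s⁻¹ := invertibleOfNonzero (inv_ne_zero hs0)
  have h1 := eval₂_reverse_mul_pow (algebraMap K F) s⁻¹ q
  rw [invOf_eq_inv, inv_inv] at h1
  have h2 : aeval s (X ^ q.natDegree * p) = aeval s q.reverse := by
    rw [map_mul, map_pow, aeval_X, ← hq', aeval_def, aeval_def, ← h1, mul_comm, mul_assoc,
      ← mul_pow, inv_mul_cancel₀ hs0, one_pow, mul_one]
  have h3 : X ^ q.natDegree * p = q.reverse := (transcendental_iff_injective.1 hs) h2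
  rcases eq_or_ne p 0 with rfl | hp
  · exact ⟨0, by simp⟩
  have h4 : (X ^ q.natDegree * p).natDegree = q.natDegree + p.natDegree := by
    rw [natDegree_X_pow_mul _ hp, add_comm]
  have h5 := reverse_natDegree_le q
  rw [← h3, h4] at h5
  have h6 : p.natDegree = 0 := by omega
  refine ⟨p.coeff 0, ?_⟩
  conv_lhs => rw [eq_C_of_natDegree_eq_zero h6]
  simp

theorem cbExch_minpoly_congr {F : Type u} [Field F] [Algebra K F] (b : F)
    (E₁ E₂ : IntermediateField K F) (h : E₁ = E₂) :
    (minpoly E₁ b).map (algebraMap E₁ F) = (minpoly E₂ b).map (algebraMap E₂ F) := by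
  subst h
  rfl

/-- the coefficients of the minimal polynomial over `K(s)` of an integral element lie in `K[s]`. -/
theorem cbExch_coeff_mem {F : Type u} [Field F] [Algebra K F] (s : F) (b : F)
    (hb : b ∈ cbInt K s) (i : ℕ) :
    ((minpoly (IntermediateField.adjoin K {s}) b).map
      (algebraMap (IntermediateField.adjoin K {s}) F)).coeff i ∈ Algebra.adjoin K {s} := by
  have hPID := cbInt_isPrincipalIdealRing (K := K) s
  have hb' : IsIntegral (Algebra.adjoin K {s}) b := hb
  rw [minpoly.isIntegrallyClosed_eq_field_fractions' (IntermediateField.adjoin K {s}) hb',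
    Polynomial.map_map, coeff_map]
  exact ((minpoly (Algebra.adjoin K {s}) b).coeff i).2

theorem cbInt_const {F : Type u} [Field F] [Algebra K F] (s : F) (hs : Transcendental K s)
    (b : F) (hb : b ∈ cbInt K s) (hb' : b ∈ cbInt K s⁻¹) : ∃ c : K, b = algebraMap K F c := by
  set M : F[X] := (minpoly (IntermediateField.adjoin K {s}) b).map
      (algebraMap (IntermediateField.adjoin K {s}) F) with hM
  have hbint : IsIntegral (IntermediateField.adjoin K {s}) b :=
    IsIntegral.tower_top (R := Algebra.adjoin K {s}) hb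
  have hMm : M.Monic := (minpoly.monic hbint).map _
  have hMb : M.eval b = 0 := by
    rw [hM, eval_map, ← aeval_def, minpoly.aeval]
  have hl : M ∈ Polynomial.lifts (algebraMap K F) := by
    rw [Polynomial.lifts_iff_coeff_lifts]
    intro i
    have h1 := cbExch_coeff_mem (K := K) s b hb i
    have h2 := cbExch_coeff_mem (K := K) s⁻¹ b hb' i
    rw [cbExch_minpoly_congr b _ _ (cb_adjoin_inv (K := K) s)] at h2
    obtain ⟨c, hc⟩ := cbExch_inter s hs _ h1 h2
    exact ⟨c, hc.symm⟩
  obtain ⟨Q, hQ, -, hQm⟩ := Polynomial.lifts_and_natDegree_eq_and_monic hl hMm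
  have hint : IsIntegral K b := ⟨Q, hQm, by rw [← eval_map, hQ, hMb]⟩
  obtain ⟨c, hc⟩ := minpoly.mem_range_of_degree_eq_one K b
    (IsAlgClosed.degree_eq_one_of_irreducible K (minpoly.irreducible hint))
  exact ⟨c, hc.symm⟩

end Fermat.Agent.S26
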