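import Fermat.Agent.S26.AV.Deg
import Fermat.Agent.S26.Alg.Trdeg
import Fermat.Agent.S26.T6.CbExch

/-!
# S26 / T6 / CB-1c : the `Curve` structure of a function field; `trdeg` of `Curve.FF`
-/

set_option autoImplicit false

open scoped TensorProduct

universe u

namespace Fermat.Agent.S26

variable {K : Type u} [Field K] [IsAlgClosed K]

/-- `B0[1/t]` inside `F`. -/
def curveOfFieldB01 (K : Type u) [Field K] {F : Type u} [Field F] [Algebra K F] (t : F) :
    Subalgebra K F where
  carrier := {z | ∃ n : ℕ, z * t ^ n ∈ cbInt K t}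
  mul_mem' := by
    rintro z z' ⟨n, hn⟩ ⟨m, hm⟩
    refine ⟨n + m, ?_⟩
    have : z * z' * t ^ (n + m) = (z * t ^ n) * (z' * t ^ m) := by rw [pow_add]; ring
    rw [this]
    exact mul_mem hn hm
  add_mem' := by
    rintro z z' ⟨n, hn⟩ ⟨m, hm⟩
    refine ⟨n + m, ?_⟩
    have : (z + z') * t ^ (n + m) = (z * t ^ n) * t ^ m + (z' * t ^ m) * t ^ n := by
      rw [pow_add]; ring
    rw [this]
    have ht : t ∈ cbInt K t := by
      show IsIntegral (Algebra.adjoin K {t}) t
      exact isIntegral_algebraMap (x := (⟨t, Algebra.self_mem_adjoin_singleton K t⟩ :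
        Algebra.adjoin K {t}))
    exact add_mem (mul_mem hn (pow_mem ht m)) (mul_mem hm (pow_mem ht n))
  algebraMap_mem' := fun c => ⟨0, by
    rw [pow_zero, mul_one]
    exact (cbInt K t).algebraMap_mem c⟩

theorem curveOfField_le0 {F : Type u} [Field F] [Algebra K F] (t : F) :
    cbInt K t ≤ curveOfFieldB01 K t := fun z hz => ⟨0, by rwa [pow_zero, mul_one]⟩

theorem curveOfField_le1 {F : Type u} [Field F] [Algebra K F] (t : F) (ht : t ≠ 0) :
    cbInt K t⁻¹ ≤ curveOfFieldB01 K t := by
  intro z hz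
  obtain ⟨N, hN⟩ := cbInt_exchange t⁻¹ (inv_ne_zero ht) z hz
  rw [inv_inv] at hN
  exact ⟨N, hN⟩

theorem curveOfField_isFractionRing {F : Type u} [Field F] [Algebra K F] (t : F)
    (ht : Transcendental K t) [FiniteDimensional (IntermediateField.adjoin K {t}) F] :
    IsFractionRing (curveOfFieldB01 K t) F := by
  have h0 := cbInt_isFractionRing t ht
  refine IsFractionRing.of_field _ _ fun z => ?_
  obtain ⟨x, y, -, rfl⟩ := IsFractionRing.div_surjective (A := cbInt K t) z
  exact ⟨⟨x, curveOfField_le0 t x.2⟩, ⟨y, curveOfField_le0 t y.2⟩, rfl⟩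

theorem exists_curve_of_field (F : Type u) [Field F] [Algebra K F] (t : F) (ht : Transcendental K t)
    [FiniteDimensional (IntermediateField.adjoin K {t}) F]
    [Algebra.IsSeparable (IntermediateField.adjoin K {t}) F] :
    ∃ C : Curve K, Nonempty (C.FF ≃ₐ[K] F) := by
  have ht0 : t ≠ 0 := by
    rintro rfl
    exact ht isAlgebraic_zero
  have ht' : Transcendental K t⁻¹ := fun h => ht (by simpa using h.inv)
  have hfd : FiniteDimensional (IntermediateField.adjoin K {t⁻¹}) F := by
    rw [cb_adjoin_inv]; infer_instance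
  have hsep : Algebra.IsSeparable (IntermediateField.adjoin K {t⁻¹}) F := by
    rw [cb_adjoin_inv]; infer_instance
  have hd0 := cbInt_isDedekindDomain t ht
  have hd1 := cbInt_isDedekindDomain t⁻¹ ht'
  obtain ⟨e0, he0⟩ := cbInt_basis t ht
  have hb1 := cbInt_basis t⁻¹ ht'
  rw [cb_adjoin_inv] at hb1
  obtain ⟨e1, he1⟩ := hb1
  have hfr := curveOfField_isFractionRing t ht
  let C : Curve K :=
    { B0 := cbInt K t
      B1 := cbInt K t⁻¹
      B01 := curveOfFieldB01 K t
      j0 := Subalgebra.inclusion (curveOfField_le0 t)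
      j1 := Subalgebra.inclusion (curveOfField_le1 t ht0)
      j0_inj := Subalgebra.inclusion_injective _
      j1_inj := Subalgebra.inclusion_injective _
      x := ⟨t, cbInt_self_mem t⟩
      y := ⟨t⁻¹, cbInt_self_mem t⁻¹⟩
      xy := Subtype.ext (mul_inv_cancel₀ ht0)
      loc0 := by
        rintro ⟨b, n, hn⟩
        exact ⟨n, ⟨_, hn⟩, Subtype.ext rfl⟩
      loc1 := by
        rintro ⟨b, n, hn⟩
        obtain ⟨N, hN⟩ := cbInt_exchange t ht0 _ hn
        refine ⟨N, ⟨b * t ^ n * t⁻¹ ^ N * t⁻¹ ^ n,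
          mul_mem hN (pow_mem (cbInt_self_mem t⁻¹) n)⟩, Subtype.ext ?_⟩
        show b * t⁻¹ ^ N = b * t ^ n * t⁻¹ ^ N * t⁻¹ ^ n
        have : t ^ n * t⁻¹ ^ n = 1 := by rw [← mul_pow, mul_inv_cancel₀ ht0, one_pow]
        calc b * t⁻¹ ^ N = b * t⁻¹ ^ N * (t ^ n * t⁻¹ ^ n) := by rw [this, mul_one]
          _ = b * t ^ n * t⁻¹ ^ N * t⁻¹ ^ n := by ring
      r := Module.finrank (IntermediateField.adjoin K {t}) F
      e0 := e0
      e1 := e1
      basis0 := he0
      basis1 := he1
      const := by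
        intro a b hab
        have hab' : (a : F) = (b : F) := congrArg Subtype.val hab
        obtain ⟨c, hc⟩ := cbInt_const t ht (a : F) a.2 (hab' ▸ b.2)
        exact ⟨c, Subtype.ext hc⟩ }
  exact ⟨C, ⟨(FractionRing.algEquiv (curveOfFieldB01 K t) F).restrictScalars K⟩⟩

/-! ### the transcendence degree of `Curve.FF` -/

theorem curveOfField_r_pos (C : Curve K) : 0 < C.r := by
  rcases Nat.eq_zero_or_pos C.r with h | h
  · exfalso
    obtain ⟨p, hp, -⟩ := C.basis0 1
    have : IsEmpty (Fin C.r) := by rw [h]; infer_instance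
    rw [Finset.univ_eq_empty, Finset.sum_empty] at hp
    exact one_ne_zero hp
  · exact h

theorem curveOfField_x_injective (C : Curve K) :
    Function.Injective (Polynomial.aeval (R := K) C.x) := by
  rw [injective_iff_map_eq_zero]
  intro P hP
  let i0 : Fin C.r := ⟨0, curveOfField_r_pos C⟩
  obtain ⟨p, -, hu⟩ := C.basis0 0
  have h1 : (fun _ => 0 : Fin C.r → Polynomial K) = p := hu _ (by simp)
  have h2 : (Pi.single i0 P : Fin C.r → Polynomial K) = p := by
    apply hu
    rw [Finset.sum_eq_single i0]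
    · rw [Pi.single_eq_same, hP, zero_mul]
    · intro j _ hj
      rw [Pi.single_eq_of_ne hj, map_zero, zero_mul]
    · intro h
      exact absurd (Finset.mem_univ _) h
  have h3 := congrFun (h2.trans h1.symm) i0
  rwa [Pi.single_eq_same] at h3

theorem curveOfField_trdeg_B0 (C : Curve K) : Algebra.trdeg K C.B0 = 1 := by
  let _ : Algebra (Polynomial K) C.B0 := (Polynomial.aeval (R := K) C.x).toRingHom.toAlgebra
  have hmap : ∀ P : Polynomial K, algebraMap (Polynomial K) C.B0 P = Polynomial.aeval C.x P :=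
    fun _ => rfl
  have htower : IsScalarTower K (Polynomial K) C.B0 := IsScalarTower.of_algebraMap_eq fun c => by
    rw [hmap, Polynomial.algebraMap_eq, Polynomial.aeval_C]
  have hf1 : FaithfulSMul (Polynomial K) C.B0 :=
    (faithfulSMul_iff_algebraMap_injective _ _).mpr (curveOfField_x_injective C)
  have hfin : Module.Finite (Polynomial K) C.B0 := by
    classical
    refine ⟨⟨Finset.univ.image C.e0, ?_⟩⟩
    rw [eq_top_iff]
    intro b _
    obtain ⟨p, hp, -⟩ := C.basis0 b
    rw [hp]
    refine Submodule.sum_mem _ fun i _ => ?_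
    rw [← hmap, ← Algebra.smul_def]
    exact Submodule.smul_mem _ _ (Submodule.subset_span (by simp))
  have hint : Algebra.IsIntegral (Polynomial K) C.B0 := Algebra.IsIntegral.of_finite _ _
  have halg : Algebra.IsAlgebraic (Polynomial K) C.B0 := inferInstance
  have h := trdeg_add_eq K (Polynomial K) (A := C.B0)
  rw [trdeg_eq_zero (R := Polynomial K) (A := C.B0), add_zero,
    Polynomial.trdeg_of_isDomain] at h
  exact h.symm

theorem Curve.trdeg_FF (C : Curve K) : Algebra.trdeg K C.FF = 1 := by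
  let φ : C.B0 →+* C.FF := (algebraMap C.B01 C.FF).comp C.j0.toRingHom
  let _ : Algebra C.B0 C.FF := φ.toAlgebra
  have hmap : ∀ a : C.B0, algebraMap C.B0 C.FF a = algebraMap C.B01 C.FF (C.j0 a) := fun _ => rfl
  have hinj : Function.Injective (algebraMap C.B0 C.FF) :=
    (IsFractionRing.injective C.B01 C.FF).comp C.j0_inj
  have htower : IsScalarTower K C.B0 C.FF := IsScalarTower.of_algebraMap_eq fun c => by
    rw [hmap, C.j0.commutes, ← IsScalarTower.algebraMap_apply]
  have hf1 : FaithfulSMul C.B0 C.FF := (faithfulSMul_iff_algebraMap_injective _ _).mpr hinj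
  have hf0 : FaithfulSMul K C.B0 :=
    (faithfulSMul_iff_algebraMap_injective _ _).mpr (algebraMap K C.B0).injective
  have hX : C.j0 C.x ≠ 0 := by
    intro h
    have := C.xy
    rw [h, zero_mul] at this
    exact zero_ne_one this
  have hx : C.x ≠ 0 := by
    rintro h
    exact hX (by rw [h, map_zero])
  have halg : Algebra.IsAlgebraic C.B0 C.FF := by
    refine ⟨fun z => ?_⟩
    obtain ⟨β, γ, hγ, rfl⟩ := IsFractionRing.div_surjective (A := C.B01) z
    have hγ0 : γ ≠ 0 := nonZeroDivisors.ne_zero hγ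
    obtain ⟨n, a, ha⟩ := C.loc0 β
    obtain ⟨m, c, hc⟩ := C.loc0 γ
    have hc0 : c ≠ 0 := by
      rintro rfl
      rw [map_zero] at hc
      exact mul_ne_zero hγ0 (pow_ne_zero _ hX) hc
    refine ⟨Polynomial.C (c * C.x ^ n) * Polynomial.X - Polynomial.C (a * C.x ^ m), ?_, ?_⟩
    · intro h
      have := congrArg (fun P => Polynomial.coeff P 1) h
      simp only [Polynomial.coeff_sub, Polynomial.coeff_C_mul, Polynomial.coeff_X_one, mul_one,
        Polynomial.coeff_C_succ, sub_zero, Polynomial.coeff_zero] at this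
      exact mul_ne_zero hc0 (pow_ne_zero _ hx) this
    · have hγ' : algebraMap C.B01 C.FF γ ≠ 0 := by
        rw [Ne, IsFractionRing.to_map_eq_zero_iff]
        exact hγ0
      rw [map_sub, map_mul, Polynomial.aeval_C, Polynomial.aeval_C, Polynomial.aeval_X, hmap, hmap]
      simp only [map_mul, map_pow]
      rw [← ha, ← hc]
      simp only [map_mul, map_pow]
      field_simp
      ring
  have h := trdeg_add_eq K C.B0 (A := C.FF)
  rw [trdeg_eq_zero (R := C.B0) (A := C.FF), add_zero, curveOfField_trdeg_B0] at h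
  exact h.symm

end Fermat.Agent.S26
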