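import Mathlib

/-!
# S26 / T6 / CB-1a : the integral closure of `K[s]` in a finite separable extension of `K(s)`
-/

set_option autoImplicit false

universe u

namespace Fermat.Agent.S26

open scoped IntermediateField.algebraAdjoinAdjoin

variable {K : Type u} [Field K] [IsAlgClosed K]

/-- the integral closure of `K[s]` in `F`, as a `K`-subalgebra -/
def cbInt (K : Type u) [Field K] {F : Type u} [Field F] [Algebra K F] (s : F) : Subalgebra K F :=
  (integralClosure (Algebra.adjoin K {s}) F).restrictScalars K

theorem cbInt_mem_iff {F : Type u} [Field F] [Algebra K F] (s x : F) :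
    x ∈ cbInt K s ↔ IsIntegral (Algebra.adjoin K {s}) x := Iff.rfl

theorem cbInt_self_mem {F : Type u} [Field F] [Algebra K F] (s : F) : s ∈ cbInt K s := by
  rw [cbInt_mem_iff]
  exact isIntegral_algebraMap (x := (⟨s, Algebra.self_mem_adjoin_singleton K s⟩ :
    Algebra.adjoin K {s}))

/-- `K[X] → K[s]`. -/
noncomputable def cbIntPoly {F : Type u} [Field F] [Algebra K F] (s : F) :
    Polynomial K →ₐ[K] Algebra.adjoin K {s} :=
  (Polynomial.aeval s).codRestrict _ (fun p => by
    rw [Algebra.adjoin_singleton_eq_range_aeval]
    exact ⟨p, rfl⟩)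

theorem cbIntPoly_coe {F : Type u} [Field F] [Algebra K F] (s : F) (p : Polynomial K) :
    ((cbIntPoly s p : Algebra.adjoin K {s}) : F) = Polynomial.aeval s p := rfl

theorem cbIntPoly_surjective {F : Type u} [Field F] [Algebra K F] (s : F) :
    Function.Surjective (cbIntPoly (K := K) s) := by
  rintro ⟨x, hx⟩
  rw [Algebra.adjoin_singleton_eq_range_aeval] at hx
  obtain ⟨p, rfl⟩ := hx
  exact ⟨p, rfl⟩

theorem cbIntPoly_injective {F : Type u} [Field F] [Algebra K F] (s : F)
    (hs : Transcendental K s) : Function.Injective (cbIntPoly (K := K) s) := by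
  intro p q h
  exact (transcendental_iff_injective.1 hs) (congrArg Subtype.val h)

theorem cbInt_isPrincipalIdealRing {F : Type u} [Field F] [Algebra K F] (s : F) :
    IsPrincipalIdealRing (Algebra.adjoin K {s}) :=
  IsPrincipalIdealRing.of_surjective (cbIntPoly (K := K) s).toRingHom (cbIntPoly_surjective s)

theorem cbInt_isDedekindDomain {F : Type u} [Field F] [Algebra K F] (s : F) (hs : Transcendental K s)
    [FiniteDimensional (IntermediateField.adjoin K {s}) F]
    [Algebra.IsSeparable (IntermediateField.adjoin K {s}) F] : IsDedekindDomain (cbInt K s) := by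
  have := cbInt_isPrincipalIdealRing (K := K) s
  exact integralClosure.isDedekindDomain (Algebra.adjoin K {s}) (IntermediateField.adjoin K {s}) F

theorem cbInt_isFractionRing {F : Type u} [Field F] [Algebra K F] (s : F) (hs : Transcendental K s)
    [FiniteDimensional (IntermediateField.adjoin K {s}) F] : IsFractionRing (cbInt K s) F :=
  integralClosure.isFractionRing_of_finite_extension (A := Algebra.adjoin K {s})
    (IntermediateField.adjoin K {s}) F

theorem cbInt_basis {F : Type u} [Field F] [Algebra K F] (s : F) (hs : Transcendental K s)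
    [FiniteDimensional (IntermediateField.adjoin K {s}) F]
    [Algebra.IsSeparable (IntermediateField.adjoin K {s}) F] :
    ∃ e : Fin (Module.finrank (IntermediateField.adjoin K {s}) F) → cbInt K s,
      ∀ b : cbInt K s, ∃! p : Fin (Module.finrank (IntermediateField.adjoin K {s}) F) → Polynomial K,
        b = ∑ i, Polynomial.aeval (⟨s, cbInt_self_mem s⟩ : cbInt K s) (p i) * e i := by
  have hPID := cbInt_isPrincipalIdealRing (K := K) s
  have hfree : Module.Free (Algebra.adjoin K {s}) (integralClosure (Algebra.adjoin K {s}) F) :=
    IsIntegralClosure.module_free (Algebra.adjoin K {s}) (IntermediateField.adjoin K {s}) F _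
  have hfin : Module.Finite (Algebra.adjoin K {s}) (integralClosure (Algebra.adjoin K {s}) F) :=
    IsIntegralClosure.finite (Algebra.adjoin K {s}) (IntermediateField.adjoin K {s}) F _
  have hrk : Module.finrank (Algebra.adjoin K {s}) (integralClosure (Algebra.adjoin K {s}) F)
      = Module.finrank (IntermediateField.adjoin K {s}) F :=
    IsIntegralClosure.rank (Algebra.adjoin K {s}) (IntermediateField.adjoin K {s}) F _
  let B := Module.finBasisOfFinrankEq (Algebra.adjoin K {s})
    (integralClosure (Algebra.adjoin K {s}) F) hrk
  -- the value of `aeval` in `F`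
  have hae : ∀ p : Polynomial K,
      ((Polynomial.aeval (⟨s, cbInt_self_mem s⟩ : cbInt K s) p : cbInt K s) : F)
        = Polynomial.aeval s p := by
    intro p
    have := Polynomial.aeval_algHom_apply (cbInt K s).val (⟨s, cbInt_self_mem s⟩ : cbInt K s) p
    exact this.symm
  let e : Fin (Module.finrank (IntermediateField.adjoin K {s}) F) → cbInt K s :=
    fun i => ⟨(B i : F), (B i).2⟩
  -- the key translation
  have key : ∀ (b : cbInt K s)
      (p : Fin (Module.finrank (IntermediateField.adjoin K {s}) F) → Polynomial K),
      (b = ∑ i, Polynomial.aeval (⟨s, cbInt_self_mem s⟩ : cbInt K s) (p i) * e i) ↔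
        (⟨(b : F), b.2⟩ : integralClosure (Algebra.adjoin K {s}) F)
          = ∑ i, cbIntPoly s (p i) • B i := by
    intro b p
    have h1 : (((∑ i, Polynomial.aeval (⟨s, cbInt_self_mem s⟩ : cbInt K s) (p i)
          * e i : cbInt K s)) : F) = ∑ i, Polynomial.aeval s (p i) * (B i : F) := by
      rw [AddSubmonoidClass.coe_finsetSum]
      refine Finset.sum_congr rfl fun i _ => ?_
      rw [MulMemClass.coe_mul, hae]
    have h2 : (((∑ i, cbIntPoly s (p i) • B i :
        integralClosure (Algebra.adjoin K {s}) F)) : F)
        = ∑ i, Polynomial.aeval s (p i) * (B i : F) := by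
      rw [AddSubmonoidClass.coe_finsetSum]
      refine Finset.sum_congr rfl fun i _ => ?_
      rfl
    constructor
    · intro h
      apply Subtype.ext
      rw [h2, ← h1]
      exact congrArg Subtype.val h
    · intro h
      apply Subtype.ext
      rw [h1, ← h2]
      exact congrArg Subtype.val h
  refine ⟨e, fun b => ?_⟩
  choose q hq using cbIntPoly_surjective (K := K) s
  refine ⟨fun i => q (B.repr ⟨(b : F), b.2⟩ i), ?_, ?_⟩
  · refine (key b _).2 ?_
    simp only [hq]
    exact (B.sum_repr _).symm
  · intro p hp
    have hp' := (key b p).1 hp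
    funext i
    apply cbIntPoly_injective s hs
    rw [hq]
    have := congrArg (fun x => B.repr x i) hp'
    simp only [map_sum, map_smul, Module.Basis.repr_self, Finsupp.coe_finsetSum, Finset.sum_apply,
      Finsupp.smul_apply, Finsupp.single_apply, smul_eq_mul, mul_ite, mul_one, mul_zero,
      Finset.sum_ite_eq', Finset.mem_univ, if_true] at this
    exact this.symm

end Fermat.Agent.S26
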