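import Fermat.Agent.S26.AV.Geo
import Fermat.Agent.S26.Alg.EtCurve
import Fermat.Agent.S26.Alg.EtCot
import Fermat.Agent.S26.Alg.Trdeg
import Fermat.Agent.S26.Alg.TrdegTensor
import Fermat.Agent.S27.B.TensorDomain

/-!
# S26 / T6-1 : the chain of subvarieties `V_k = C_1 + ... + C_k` has dimension `k`
-/

set_option autoImplicit false

open scoped TensorProduct

universe u

namespace Fermat.Agent.S26

/-! ### pure algebra -/

section Alg

variable {K : Type u} [Field K]

/-- a localisation of a domain has the same transcendence degree -/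
theorem chain_trdeg_localization (B L : Type u) [CommRing B] [IsDomain B] [Algebra K B]
    [CommRing L] [IsDomain L] [Algebra B L] [Algebra K L] [IsScalarTower K B L] (M : Submonoid B)
    (hM : M ≤ nonZeroDivisors B) [IsLocalization M L] :
    Algebra.trdeg K L = Algebra.trdeg K B := by
  have : Algebra.IsAlgebraic B L := IsLocalization.isAlgebraic L M
  have : FaithfulSMul B L := (faithfulSMul_iff_algebraMap_injective B L).mpr
    (IsLocalization.injective L hM)
  have : FaithfulSMul K B := (faithfulSMul_iff_algebraMap_injective K B).mpr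
    (algebraMap K B).injective
  have h := trdeg_add_eq K B (A := L)
  rw [trdeg_eq_zero (R := B) (A := L), add_zero] at h
  exact h.symm

open scoped IntermediateField.algebraAdjoinAdjoin in
/-- a field which is finite over `K(x)` has transcendence degree `≤ 1`. -/
theorem chain_trdeg_field_le_one (F : Type u) [Field F] [Algebra K F] (x : F)
    (h : FiniteDimensional (IntermediateField.adjoin K {x}) F) : Algebra.trdeg K F ≤ 1 := by
  have h1 : Algebra.IsAlgebraic (IntermediateField.adjoin K {x}) F :=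
    Algebra.IsAlgebraic.of_finite _ _
  have h2 : Algebra.IsAlgebraic (Algebra.adjoin K {x}) F :=
    (IsFractionRing.comap_isAlgebraic_iff (K := IntermediateField.adjoin K {x})).mpr h1
  have h3 := Algebra.IsAlgebraic.trdeg_le_cardinalMk K ({x} : Set F)
  rwa [Cardinal.mk_singleton] at h3

/-- strict monotonicity of the transcendence degree of quotients. -/
theorem chain_trdeg_succ_le (R : Type u) [CommRing R] [Algebra K R] (I' I : Ideal R) [I'.IsPrime]
    [I.IsPrime] (hle : I' ≤ I) (h : R) (hI : h ∈ I) (hI' : h ∉ I')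
    (hfin : Algebra.trdeg K (R ⧸ I') < Cardinal.aleph0) (k : ℕ)
    (hk : (k : Cardinal.{u}) ≤ Algebra.trdeg K (R ⧸ I)) :
    ((k + 1 : ℕ) : Cardinal.{u}) ≤ Algebra.trdeg K (R ⧸ I') := by
  have hprime : (I.map (Ideal.Quotient.mk I')).IsPrime :=
    Ideal.map_isPrime_of_surjective Ideal.Quotient.mk_surjective (by rwa [Ideal.mk_ker])
  have hne : I.map (Ideal.Quotient.mk I') ≠ ⊥ := by
    intro hbot
    have h1 : Ideal.Quotient.mk I' h ∈ I.map (Ideal.Quotient.mk I') := Ideal.mem_map_of_mem _ hI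
    rw [hbot, Ideal.mem_bot, Ideal.Quotient.eq_zero_iff_mem] at h1
    exact hI' h1
  have hlt := trdeg_quotient_lt K (R ⧸ I') hfin (I.map (Ideal.Quotient.mk I')) hne
  have heq : Algebra.trdeg K ((R ⧸ I') ⧸ I.map (Ideal.Quotient.mk I')) = Algebra.trdeg K (R ⧸ I) :=
    (DoubleQuot.quotQuotEquivQuotOfLEₐ K hle).trdeg_eq
  rw [heq] at hlt
  rw [Nat.cast_add, Nat.cast_one]
  exact Cardinal.add_one_le_of_lt (hk.trans_lt hlt)

/-- if the fraction field of `D` is generated by `T` and `f : D → Φ` is injective and maps `T` into `E`,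
then `f` maps `D` into `E`. -/
theorem chain_mem_of_adjoin {D Φ : Type u} [CommRing D] [IsDomain D] [Algebra K D] [Field Φ]
    [Algebra K Φ] (f : D →ₐ[K] Φ) (hf : Function.Injective f) (E : IntermediateField K Φ)
    (T : Set (FractionRing D)) (hT : IntermediateField.adjoin K T = ⊤)
    (hTE : ∀ x ∈ T, (IsFractionRing.liftAlgHom hf : FractionRing D →ₐ[K] Φ) x ∈ E) (d : D) :
    f d ∈ E := by
  have h1 : (⊤ : IntermediateField K (FractionRing D)).map
      (IsFractionRing.liftAlgHom hf : FractionRing D →ₐ[K] Φ) ≤ E := by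
    rw [← hT, IntermediateField.adjoin_map, IntermediateField.adjoin_le_iff]
    rintro _ ⟨x, hx, rfl⟩
    exact hTE x hx
  have h2 : (IsFractionRing.liftAlgHom hf : FractionRing D →ₐ[K] Φ)
      (algebraMap D (FractionRing D) d) = f d := by
    rw [IsFractionRing.liftAlgHom_apply]
    exact IsFractionRing.lift_algebraMap hf d
  rw [← h2]
  exact h1 ⟨_, IntermediateField.mem_top, rfl⟩

/-- generation of the fraction field of a localisation of a tensor product -/
theorem chain_gen {D C D'' Φ : Type u} [CommRing D] [Algebra K D] [CommRing C] [Algebra K C]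
    [CommRing D''] [IsDomain D''] [Algebra (D ⊗[K] C) D'']
    (s : D ⊗[K] C) [IsLocalization.Away s D'']
    [Field Φ] [Algebra K Φ] [Algebra D'' Φ] [IsFractionRing D'' Φ]
    (E : IntermediateField K Φ)
    (hD : ∀ d : D, algebraMap D'' Φ (algebraMap (D ⊗[K] C) D'' (d ⊗ₜ 1)) ∈ E)
    (hC : ∀ c : C, algebraMap D'' Φ (algebraMap (D ⊗[K] C) D'' (1 ⊗ₜ c)) ∈ E) : E = ⊤ := by
  have h1 : ∀ x : D ⊗[K] C, algebraMap D'' Φ (algebraMap (D ⊗[K] C) D'' x) ∈ E := by
    intro x
    induction x using TensorProduct.induction_on with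
    | zero => rw [map_zero, map_zero]; exact E.zero_mem
    | tmul d c =>
      have : d ⊗ₜ[K] c = (d ⊗ₜ[K] (1 : C)) * ((1 : D) ⊗ₜ[K] c) := by
        rw [Algebra.TensorProduct.tmul_mul_tmul, mul_one, one_mul]
      rw [this, map_mul, map_mul]
      exact E.mul_mem (hD d) (hC c)
    | add x y hx hy => rw [map_add, map_add]; exact E.add_mem hx hy
  have h2 : ∀ y : D'', algebraMap D'' Φ y ∈ E := by
    intro y
    obtain ⟨⟨a, m⟩, hm⟩ := IsLocalization.surj (Submonoid.powers s) y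
    have hunit : IsUnit (algebraMap (D ⊗[K] C) D'' m) := IsLocalization.map_units D'' m
    have hne : algebraMap D'' Φ (algebraMap (D ⊗[K] C) D'' m) ≠ 0 :=
      (hunit.map (algebraMap D'' Φ)).ne_zero
    have h3 : algebraMap D'' Φ y = algebraMap D'' Φ (algebraMap (D ⊗[K] C) D'' a) /
        algebraMap D'' Φ (algebraMap (D ⊗[K] C) D'' m) := by
      rw [eq_div_iff hne, ← map_mul]
      exact congrArg _ hm
    rw [h3]
    exact E.div_mem (h1 a) (h1 m)
  rw [eq_top_iff]
  intro z _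
  obtain ⟨a, b, _, rfl⟩ := IsFractionRing.div_surjective D'' z
  exact E.div_mem (h2 a) (h2 b)

/-- extension of a homomorphism to a localisation, with values in the fraction field. -/
theorem chain_exists_lift {D' D'' T : Type u} [CommRing D'] [Algebra K D'] [CommRing D'']
    [Algebra K D''] [Algebra D' D''] [IsScalarTower K D' D''] (s : D') [IsLocalization.Away s D'']
    [CommRing T] [IsDomain T] [Algebra K T] (σ : D' →ₐ[K] T) (hs : σ s ≠ 0) :
    ∃ σ' : D'' →ₐ[K] FractionRing T,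
      σ'.comp (IsScalarTower.toAlgHom K D' D'') =
        (IsScalarTower.toAlgHom K T (FractionRing T)).comp σ := by
  have hu : ∀ y : Submonoid.powers s,
      IsUnit (((IsScalarTower.toAlgHom K T (FractionRing T)).comp σ) y) := by
    rintro ⟨_, n, rfl⟩
    have : algebraMap T (FractionRing T) (σ s) ≠ 0 := by
      rwa [Ne, IsFractionRing.to_map_eq_zero_iff]
    simp only [AlgHom.comp_apply, map_pow]
    exact (IsUnit.mk0 _ this).pow n
  refine ⟨IsLocalization.liftAlgHom hu, ?_⟩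
  ext x
  simp only [AlgHom.comp_apply, IsScalarTower.coe_toAlgHom', IsLocalization.liftAlgHom_apply]
  exact IsLocalization.lift_eq _ x

end Alg

/-! ### the group functor -/

section AVF

variable {K : Type u} [Field K] (𝔸 : AVF K)

theorem chain_map_zero {S S' : Type u} [CommRing S] [Algebra K S] [CommRing S'] [Algebra K S']
    (φ : S →ₐ[K] S') : 𝔸.map φ (0 : 𝔸.pt S) = 0 := by
  have h := 𝔸.map_add φ 0 0
  rw [add_zero] at h
  exact left_eq_add.mp h

theorem chain_map_sum {S S' : Type u} [CommRing S] [Algebra K S] [CommRing S'] [Algebra K S']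
    (φ : S →ₐ[K] S') {ι : Type*} (s : Finset ι) (f : ι → 𝔸.pt S) :
    𝔸.map φ (∑ i ∈ s, f i) = ∑ i ∈ s, 𝔸.map φ (f i) := by
  classical
  induction s using Finset.induction_on with
  | empty => simp [chain_map_zero]
  | insert a s ha ih => rw [Finset.sum_insert ha, Finset.sum_insert ha, 𝔸.map_add, ih]

end AVF

variable {K : Type u} [Field K] [IsAlgClosed K] {𝔸 : AVF K} {g : ℕ}

omit [IsAlgClosed K] in
/-- comparison of kernels through a specialisation `σ` of the localisation. -/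
theorem chain_ker_le (G : Geo 𝔸 g) {D' D'' T : Type u} [CommRing D'] [Algebra K D'] [CommRing D'']
    [Algebra K D''] [Algebra D' D''] [IsScalarTower K D' D''] (s : D') [IsLocalization.Away s D'']
    [CommRing T] [IsDomain T] [Algebra K T] (u' : 𝔸.pt D') (w' : G.R₀ →ₐ[K] D'')
    (hw' : 𝔸.map (IsScalarTower.toAlgHom K D' D'') u' = 𝔸.map w' G.ι₀)
    (σ : D' →ₐ[K] T) (hs : σ s ≠ 0) (v : G.R₀ →ₐ[K] T) (hv : 𝔸.map σ u' = 𝔸.map v G.ι₀) :
    RingHom.ker w' ≤ RingHom.ker v := by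
  obtain ⟨σ', hσ'⟩ := chain_exists_lift (D'' := D'') s σ hs
  have h1 : σ'.comp w' = (IsScalarTower.toAlgHom K T (FractionRing T)).comp v := by
    apply G.mono
    rw [𝔸.map_comp, ← hw', ← 𝔸.map_comp, hσ', 𝔸.map_comp, hv, ← 𝔸.map_comp]
  intro x hx
  rw [RingHom.mem_ker] at hx ⊢
  have h2 := DFunLike.congr_fun h1 x
  simp only [AlgHom.comp_apply, IsScalarTower.coe_toAlgHom'] at h2
  have hx' : w' x = 0 := hx
  rw [hx', map_zero] at h2
  exact (IsFractionRing.to_map_eq_zero_iff (K := FractionRing T)).1 h2.symm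

/-- the curve property (7) -/
def ChainCurve (G : Geo 𝔸 g) (𝔮 : Ideal G.R₀) : Prop :=
  ∃ (_ : 𝔮.IsPrime) (t : G.R₀ ⧸ 𝔮), Transcendental K t ∧
    ∀ (F : Type u) [Field F] [Algebra K F] [Algebra (G.R₀ ⧸ 𝔮) F]
      [IsScalarTower K (G.R₀ ⧸ 𝔮) F] [IsFractionRing (G.R₀ ⧸ 𝔮) F],
      FiniteDimensional (IntermediateField.adjoin K {algebraMap (G.R₀ ⧸ 𝔮) F t}) F ∧
      Algebra.IsSeparable (IntermediateField.adjoin K {algebraMap (G.R₀ ⧸ 𝔮) F t}) F

/-- the geometric step, the curve being given. -/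
theorem chain_step_core (G : Geo 𝔸 g) (k : ℕ)
    (D : Type u) [CommRing D] [IsDomain D] [Algebra K D] [Algebra.FiniteType K D]
    (e : D →ₐ[K] K) (w : G.R₀ →ₐ[K] D)
    (h1 : Algebra.trdeg K D ≤ k) (h5 : e.comp w = G.ε₀)
    (h6 : (k : Cardinal.{u}) ≤ Algebra.trdeg K (G.R₀ ⧸ RingHom.ker w))
    (𝔮 : Ideal G.R₀) [𝔮.IsPrime] (h𝔮ε : 𝔮 ≤ RingHom.ker G.ε₀) (h : G.R₀) (hhP : h ∈ RingHom.ker w)
    (hh𝔮 : h ∉ 𝔮) (htrC : Algebra.trdeg K (G.R₀ ⧸ 𝔮) ≤ 1) :
    ∃ (D'' : Type u) (_ : CommRing D'') (_ : IsDomain D'') (_ : Algebra K D'')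
      (_ : Algebra.FiniteType K D'')
      (e'' : D'' →ₐ[K] K) (a : D →ₐ[K] D'') (b : G.R₀ →ₐ[K] D'') (w' : G.R₀ →ₐ[K] D''),
      Function.Injective a ∧ RingHom.ker b = 𝔮 ∧ Algebra.trdeg K D'' ≤ (k + 1 : ℕ) ∧
      (∀ (Φ : Type u) [Field Φ] [Algebra K Φ] [Algebra D'' Φ] [IsScalarTower K D'' Φ]
        [IsFractionRing D'' Φ] (E : IntermediateField K Φ),
        (∀ d, algebraMap D'' Φ (a d) ∈ E) → (∀ z, algebraMap D'' Φ (b z) ∈ E) → E = ⊤) ∧
      𝔸.map w' G.ι₀ = 𝔸.map (a.comp w) G.ι₀ + 𝔸.map b G.ι₀ ∧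
      e''.comp w' = G.ε₀ ∧
      ((k + 1 : ℕ) : Cardinal.{u}) ≤ Algebra.trdeg K (G.R₀ ⧸ RingHom.ker w') := by
  classical
  set C : Type u := G.R₀ ⧸ 𝔮 with hC
  let mk : G.R₀ →ₐ[K] C := Ideal.Quotient.mkₐ K 𝔮
  let εb : C →ₐ[K] K := Ideal.Quotient.liftₐ 𝔮 G.ε₀ (fun a ha => h𝔮ε ha)
  have hεb : εb.comp mk = G.ε₀ := Ideal.Quotient.liftₐ_comp 𝔮 G.ε₀ _
  have hdom : IsDomain (D ⊗[K] C) := S27.isDomain_tensorProduct_of_isAlgClosed K D C
  let iL : D →ₐ[K] D ⊗[K] C := Algebra.TensorProduct.includeLeft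
  let iR : C →ₐ[K] D ⊗[K] C := Algebra.TensorProduct.includeRight
  let e' : D ⊗[K] C →ₐ[K] K := Algebra.TensorProduct.productMap e εb
  have he'L : e'.comp iL = e := Algebra.TensorProduct.productMap_left e εb
  have he'R : e'.comp iR = εb := Algebra.TensorProduct.productMap_right e εb
  set u' : 𝔸.pt (D ⊗[K] C) := 𝔸.map (iL.comp w) G.ι₀ + 𝔸.map (iR.comp mk) G.ι₀ with hu'
  have hmapu' : ∀ {T : Type u} [CommRing T] [Algebra K T] (σ : D ⊗[K] C →ₐ[K] T),
      𝔸.map σ u' = 𝔸.map ((σ.comp iL).comp w) G.ι₀ + 𝔸.map ((σ.comp iR).comp mk) G.ι₀ := by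
    intro T _ _ σ
    rw [hu', 𝔸.map_add, ← 𝔸.map_comp, ← 𝔸.map_comp, AlgHom.comp_assoc, AlgHom.comp_assoc]
  have he'u' : 𝔸.map e' u' = 𝔸.map G.ε₀ G.ι₀ := by
    rw [hmapu', he'L, he'R, h5, hεb, G.ε₀_ι₀, add_zero]
  obtain ⟨s, hs, w', hw'⟩ := G.zar u' K e' G.ε₀ he'u'
  have hs0 : s ≠ 0 := fun h0 => hs (by rw [h0, map_zero])
  have hpow : Submonoid.powers s ≤ nonZeroDivisors (D ⊗[K] C) :=
    powers_le_nonZeroDivisors_of_noZeroDivisors hs0
  have hdom'' : IsDomain (Localization.Away s) := IsLocalization.isDomain_localization hpow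
  have hftC : Algebra.FiniteType K C := inferInstance
  have hft' : Algebra.FiniteType K (D ⊗[K] C) :=
    Algebra.FiniteType.trans (S := D) inferInstance inferInstance
  have hft'' : Algebra.FiniteType K (Localization.Away s) :=
    Algebra.FiniteType.trans hft' (IsLocalization.finiteType_of_monoid_fg (Submonoid.powers s) _)
  let ι : D ⊗[K] C →ₐ[K] Localization.Away s := IsScalarTower.toAlgHom K _ _
  have hιinj : Function.Injective ι := IsLocalization.injective _ hpow
  have hw'' : 𝔸.map ι u' = 𝔸.map w' G.ι₀ := hw'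
  have hu : ∀ y : Submonoid.powers s, IsUnit (e' y) := by
    rintro ⟨_, n, rfl⟩
    simp only [map_pow]
    exact (IsUnit.mk0 _ hs).pow n
  let e'' : Localization.Away s →ₐ[K] K := IsLocalization.liftAlgHom hu
  have he'' : e''.comp ι = e' := by
    apply AlgHom.ext
    intro x
    exact IsLocalization.lift_eq _ x
  have hiL : Function.Injective iL :=
    Algebra.TensorProduct.includeLeft_injective (algebraMap K C).injective
  have hiR : Function.Injective iR :=
    Algebra.TensorProduct.includeRight_injective (algebraMap K D).injective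
  refine ⟨Localization.Away s, inferInstance, hdom'', inferInstance, hft'', e'', ι.comp iL,
    ι.comp (iR.comp mk), w', ?_, ?_, ?_, ?_, ?_, ?_, ?_⟩
  · exact hιinj.comp hiL
  · -- the kernel of `b`
    ext x
    rw [RingHom.mem_ker]
    constructor
    · intro hx
      have h2 : mk x = 0 := hiR (hιinj (by rw [map_zero, map_zero]; exact hx))
      exact Ideal.Quotient.eq_zero_iff_mem.1 h2
    · intro hx
      have h2 : mk x = 0 := Ideal.Quotient.eq_zero_iff_mem.2 hx
      show ι (iR (mk x)) = 0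
      rw [h2, map_zero, map_zero]
  · -- the transcendence degree
    rw [chain_trdeg_localization (D ⊗[K] C) (Localization.Away s) (Submonoid.powers s) hpow]
    refine (trdeg_tensorProduct_le K D C).trans ?_
    rw [Nat.cast_add, Nat.cast_one]
    exact add_le_add h1 htrC
  · -- generation
    intro Φ _ _ _ _ _ E hD hC'
    refine chain_gen (D := D) (C := C) (D'' := Localization.Away s) s E hD fun c => ?_
    obtain ⟨z, rfl⟩ := Ideal.Quotient.mk_surjective c
    exact hC' z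
  · rw [← hw'', hu', 𝔸.map_add, ← 𝔸.map_comp, ← 𝔸.map_comp, AlgHom.comp_assoc]
  · apply G.mono
    rw [𝔸.map_comp, ← hw'', ← 𝔸.map_comp, he'', he'u']
  · -- the specialisation `σ₁ = id ⊗ ε̄₀`
    let σ₁ : D ⊗[K] C →ₐ[K] D :=
      Algebra.TensorProduct.productMap (AlgHom.id K D) ((Algebra.ofId K D).comp εb)
    have hσ₁L : σ₁.comp iL = AlgHom.id K D := Algebra.TensorProduct.productMap_left _ _
    have hσ₁R : σ₁.comp iR = (Algebra.ofId K D).comp εb :=
      Algebra.TensorProduct.productMap_right _ _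
    have heσ₁ : ∀ x, e (σ₁ x) = e' x := by
      intro x
      induction x using TensorProduct.induction_on with
      | zero => simp
      | tmul d c =>
        simp only [σ₁, e', Algebra.TensorProduct.productMap_apply_tmul, AlgHom.id_apply,
          AlgHom.comp_apply, map_mul, Algebra.ofId_apply, AlgHom.commutes]
        rfl
      | add x y hx hy => rw [map_add, map_add, map_add, hx, hy]
    have hσ₁s : σ₁ s ≠ 0 := fun h0 => hs (by rw [← heσ₁, h0, map_zero])
    have hσ₁u : 𝔸.map σ₁ u' = 𝔸.map w G.ι₀ := by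
      rw [hmapu', hσ₁L, hσ₁R, AlgHom.id_comp, AlgHom.comp_assoc, hεb, 𝔸.map_comp, G.ε₀_ι₀,
        chain_map_zero, add_zero]
    have hle₁ : RingHom.ker w' ≤ RingHom.ker w :=
      chain_ker_le G (D'' := Localization.Away s) s u' w' hw'' σ₁ hσ₁s w hσ₁u
    -- the specialisation `σ₂ = e ⊗ id`
    let σ₂ : D ⊗[K] C →ₐ[K] C :=
      Algebra.TensorProduct.productMap ((Algebra.ofId K C).comp e) (AlgHom.id K C)
    have hσ₂L : σ₂.comp iL = (Algebra.ofId K C).comp e := Algebra.TensorProduct.productMap_left _ _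
    have hσ₂R : σ₂.comp iR = AlgHom.id K C := Algebra.TensorProduct.productMap_right _ _
    have heσ₂ : ∀ x, εb (σ₂ x) = e' x := by
      intro x
      induction x using TensorProduct.induction_on with
      | zero => simp
      | tmul d c =>
        simp only [σ₂, e', Algebra.TensorProduct.productMap_apply_tmul, AlgHom.id_apply,
          AlgHom.comp_apply, map_mul, Algebra.ofId_apply, AlgHom.commutes]
        rfl
      | add x y hx hy => rw [map_add, map_add, map_add, hx, hy]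
    have hσ₂s : σ₂ s ≠ 0 := fun h0 => hs (by rw [← heσ₂, h0, map_zero])
    have hσ₂u : 𝔸.map σ₂ u' = 𝔸.map mk G.ι₀ := by
      rw [hmapu', hσ₂L, hσ₂R, AlgHom.id_comp, AlgHom.comp_assoc, h5, 𝔸.map_comp, G.ε₀_ι₀,
        chain_map_zero, zero_add]
    have hle₂ : RingHom.ker w' ≤ RingHom.ker mk :=
      chain_ker_le G (D'' := Localization.Away s) s u' w' hw'' σ₂ hσ₂s mk hσ₂u
    have hhw' : h ∉ RingHom.ker w' := by
      intro hmem
      have h2 : mk h = 0 := hle₂ hmem
      exact hh𝔮 (Ideal.Quotient.eq_zero_iff_mem.1 h2)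
    have hp' : (RingHom.ker w').IsPrime := RingHom.ker_isPrime _
    have hp : (RingHom.ker w).IsPrime := RingHom.ker_isPrime _
    exact chain_trdeg_succ_le G.R₀ (RingHom.ker w') (RingHom.ker w) hle₁ h hhP hhw'
      trdeg_lt_aleph0_of_finiteType k h6

/-- the geometric step: add one curve. -/
theorem chain_step (G : Geo 𝔸 g) (k : ℕ) (hk : k + 1 ≤ g)
    (D : Type u) [CommRing D] [IsDomain D] [Algebra K D] [Algebra.FiniteType K D]
    (e : D →ₐ[K] K) (w : G.R₀ →ₐ[K] D)
    (h1 : Algebra.trdeg K D ≤ k) (h5 : e.comp w = G.ε₀)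
    (h6 : (k : Cardinal.{u}) ≤ Algebra.trdeg K (G.R₀ ⧸ RingHom.ker w)) :
    ∃ (𝔮 : Ideal G.R₀) (_ : ChainCurve G 𝔮)
      (D'' : Type u) (_ : CommRing D'') (_ : IsDomain D'') (_ : Algebra K D'')
      (_ : Algebra.FiniteType K D'')
      (e'' : D'' →ₐ[K] K) (a : D →ₐ[K] D'') (b : G.R₀ →ₐ[K] D'') (w' : G.R₀ →ₐ[K] D''),
      Function.Injective a ∧ RingHom.ker b = 𝔮 ∧ Algebra.trdeg K D'' ≤ (k + 1 : ℕ) ∧
      (∀ (Φ : Type u) [Field Φ] [Algebra K Φ] [Algebra D'' Φ] [IsScalarTower K D'' Φ]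
        [IsFractionRing D'' Φ] (E : IntermediateField K Φ),
        (∀ d, algebraMap D'' Φ (a d) ∈ E) → (∀ z, algebraMap D'' Φ (b z) ∈ E) → E = ⊤) ∧
      𝔸.map w' G.ι₀ = 𝔸.map (a.comp w) G.ι₀ + 𝔸.map b G.ι₀ ∧
      e''.comp w' = G.ε₀ ∧
      ((k + 1 : ℕ) : Cardinal.{u}) ≤ Algebra.trdeg K (G.R₀ ⧸ RingHom.ker w') := by
  classical
  have htr : Algebra.trdeg K G.R₀ = g := et_trdeg K G.R₀ g G.y₀ G.et
  have hP : RingHom.ker w ≠ ⊥ := by
    intro hbot
    have hinj : Function.Injective w := (RingHom.injective_iff_ker_eq_bot w).2 hbot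
    have h2 := trdeg_le_of_injective w hinj
    rw [htr] at h2
    have h3 : (g : Cardinal.{u}) ≤ k := h2.trans h1
    have h4 : g ≤ k := by exact_mod_cast h3
    omega
  obtain ⟨h, hhP, hh0⟩ := Submodule.exists_mem_ne_zero_of_ne_bot hP
  obtain ⟨𝔮, h𝔮, h𝔮ε, hh𝔮, t, ht, hF⟩ :=
    et_exists_curve K G.R₀ g (by omega) G.y₀ G.et G.ε₀ h hh0
  have htrC : Algebra.trdeg K (G.R₀ ⧸ 𝔮) ≤ 1 := by
    rw [← trdeg_eq_of_isFractionRing K (G.R₀ ⧸ 𝔮) (FractionRing (G.R₀ ⧸ 𝔮))]
    exact chain_trdeg_field_le_one _ _ (hF (FractionRing (G.R₀ ⧸ 𝔮))).1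
  exact ⟨𝔮, ⟨h𝔮, t, ht, hF⟩, chain_step_core G k D e w h1 h5 h6 𝔮 h𝔮ε h hhP hh𝔮 htrC⟩

omit [IsAlgClosed K] in
theorem chain_adjoin_top_of_surjective {D Φ : Type u} [CommRing D] [IsDomain D] [Algebra K D]
    [Field Φ] [Algebra K Φ] [Algebra D Φ] [IsScalarTower K D Φ] [IsFractionRing D Φ]
    (h : Function.Surjective (algebraMap K D)) (S : Set Φ) : IntermediateField.adjoin K S = ⊤ := by
  rw [eq_top_iff]
  intro z _
  obtain ⟨a, b, _, rfl⟩ := IsFractionRing.div_surjective D z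
  obtain ⟨a, rfl⟩ := h a
  obtain ⟨b, rfl⟩ := h b
  rw [← IsScalarTower.algebraMap_apply, ← IsScalarTower.algebraMap_apply]
  exact IntermediateField.div_mem _ (IntermediateField.algebraMap_mem _ a)
    (IntermediateField.algebraMap_mem _ b)

theorem Geo.exists_chain (G : Geo 𝔸 g) (k : ℕ) (hk : k ≤ g) :
    ∃ (D : Type u) (_ : CommRing D) (_ : IsDomain D) (_ : Algebra K D) (_ : Algebra.FiniteType K D)
      (e : D →ₐ[K] K) (𝔭 : Fin k → Ideal G.R₀) (r : Fin k → (G.R₀ →ₐ[K] D)) (w : G.R₀ →ₐ[K] D),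
      Algebra.trdeg K D ≤ k ∧
      (∀ i, RingHom.ker (r i) = 𝔭 i) ∧
      (∀ (Φ : Type u) [Field Φ] [Algebra K Φ] [Algebra D Φ] [IsScalarTower K D Φ]
        [IsFractionRing D Φ], IntermediateField.adjoin K
          (⋃ i, Set.range fun z => algebraMap D Φ (r i z)) = ⊤) ∧
      𝔸.map w G.ι₀ = ∑ i, 𝔸.map (r i) G.ι₀ ∧
      e.comp w = G.ε₀ ∧
      (k : Cardinal.{u}) ≤ Algebra.trdeg K (G.R₀ ⧸ RingHom.ker w) ∧
      ∀ i, ∃ (_ : (𝔭 i).IsPrime) (t : G.R₀ ⧸ 𝔭 i), Transcendental K t ∧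
        ∀ (F : Type u) [Field F] [Algebra K F] [Algebra (G.R₀ ⧸ 𝔭 i) F]
          [IsScalarTower K (G.R₀ ⧸ 𝔭 i) F] [IsFractionRing (G.R₀ ⧸ 𝔭 i) F],
          FiniteDimensional (IntermediateField.adjoin K {algebraMap (G.R₀ ⧸ 𝔭 i) F t}) F ∧
          Algebra.IsSeparable (IntermediateField.adjoin K {algebraMap (G.R₀ ⧸ 𝔭 i) F t}) F := by
  induction k with
  | zero =>
    refine ⟨K, inferInstance, inferInstance, inferInstance, inferInstance, AlgHom.id K K,
      Fin.elim0, Fin.elim0, G.ε₀, ?_, fun i => i.elim0, ?_, ?_, AlgHom.id_comp _, ?_,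
      fun i => i.elim0⟩
    · rw [trdeg_eq_zero]; exact zero_le
    · intro Φ i1 i2 i3 i4 i5
      exact @chain_adjoin_top_of_surjective K _ K Φ _ _ _ i1 i2 i3 i4 i5 Function.surjective_id _
    · rw [G.ε₀_ι₀]; simp
    · simp
  | succ k ih =>
    obtain ⟨D, _, _, _, _, e, 𝔭, r, w, h1, h2, h3, h4, h5, h6, h7⟩ := ih (by omega)
    obtain ⟨𝔮, h𝔮, D'', _, _, _, _, e'', a, b, w', ha, hb, htr, hgen, hw', he'', hk'⟩ :=
      chain_step G k hk D e w h1 h5 h6
    refine ⟨D'', inferInstance, inferInstance, inferInstance, inferInstance, e'',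
      Fin.snoc (α := fun _ => Ideal G.R₀) 𝔭 𝔮,
      Fin.snoc (α := fun _ => G.R₀ →ₐ[K] D'') (fun i => a.comp (r i)) b, w', htr, ?_, ?_, ?_, he'',
      hk', ?_⟩
    · intro i
      refine Fin.lastCases ?_ (fun j => ?_) i
      · rw [Fin.snoc_last, Fin.snoc_last]; exact hb
      · rw [Fin.snoc_castSucc, Fin.snoc_castSucc, ← h2 j]
        ext x
        rw [RingHom.mem_ker, RingHom.mem_ker]
        exact ⟨fun hx => ha (by rw [map_zero]; exact hx), fun hx => by
          show a (r j x) = 0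
          have hx' : r j x = 0 := hx
          rw [hx', map_zero]⟩
    · intro Φ _ _ _ _ _
      apply hgen Φ
      · intro d
        have hinj : Function.Injective ((IsScalarTower.toAlgHom K D'' Φ).comp a) :=
          (IsFractionRing.injective D'' Φ).comp ha
        refine chain_mem_of_adjoin ((IsScalarTower.toAlgHom K D'' Φ).comp a) hinj _ _
          (h3 (FractionRing D)) ?_ d
        intro x hx
        obtain ⟨j, z, rfl⟩ := Set.mem_iUnion.1 hx
        rw [IsFractionRing.liftAlgHom_apply]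
        have h8 : IsFractionRing.lift hinj (algebraMap D (FractionRing D) (r j z))
            = ((IsScalarTower.toAlgHom K D'' Φ).comp a) (r j z) :=
          IsFractionRing.lift_algebraMap hinj _
        refine h8 ▸ IntermediateField.subset_adjoin _ _ (Set.mem_iUnion.2 ⟨j.castSucc, z, ?_⟩)
        show algebraMap D'' Φ _ = _
        rw [Fin.snoc_castSucc]
        rfl
      · intro z
        refine IntermediateField.subset_adjoin _ _ (Set.mem_iUnion.2 ⟨Fin.last k, z, ?_⟩)
        show algebraMap D'' Φ _ = _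
        rw [Fin.snoc_last]
    · rw [hw', Fin.sum_univ_castSucc, Fin.snoc_last, 𝔸.map_comp, h4, chain_map_sum]
      congr 1
      refine Finset.sum_congr rfl fun j _ => ?_
      rw [Fin.snoc_castSucc, 𝔸.map_comp]
    · intro i
      refine Fin.lastCases ?_ (fun j => ?_) i
      · rw [Fin.snoc_last]; exact h𝔮
      · rw [Fin.snoc_castSucc]; exact h7 j

end Fermat.Agent.S26
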