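/-
S26 / T6 / Extend (T6-3) : a rational map from a curve to `A` is a morphism.
-/
import Fermat.Agent.S26.AV.Deg

set_option autoImplicit false

open scoped TensorProduct

universe u

namespace Fermat.Agent.S26

variable {K : Type u} [Field K] [IsAlgClosed K] {𝔸 : AVF K} {g : ℕ}

/-- Dedekind domains are stable under ring isomorphisms -/
private theorem extend_isDedekindDomain_of_equiv {A B : Type*} [CommRing A] [CommRing B]
    [IsDedekindDomain A] (e : A ≃+* B) : IsDedekindDomain B :=
  have h1 : IsDomain B := MulEquiv.isDomain A e.symm.toMulEquiv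
  have h2 : IsNoetherianRing B := isNoetherianRing_of_ringEquiv A e
  have h3 : Ring.DimensionLEOne B := Ring.DimensionLEOne.of_ringEquiv e.symm
  have h4 : IsIntegrallyClosed B := IsIntegrallyClosed.of_equiv e
  { h1, h2, h3, h4 with }

section frac

variable {S Φ : Type u} [CommRing S] [Algebra K S] [Field Φ] [Algebra K Φ]

omit [IsAlgClosed K] in
/-- `Φ` is the fraction field of `S` via `a` -/
private theorem extend_isFractionRing (a : S →ₐ[K] Φ) (hinj : Function.Injective a)
    (hfrac : ∀ z : Φ, ∃ p q : S, a q ≠ 0 ∧ z * a q = a p) :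
    @IsFractionRing S _ Φ _ a.toRingHom.toAlgebra := by
  let _ : Algebra S Φ := a.toRingHom.toAlgebra
  have : FaithfulSMul S Φ := (faithfulSMul_iff_algebraMap_injective S Φ).2 hinj
  refine IsFractionRing.of_field S Φ (fun z => ?_)
  obtain ⟨p, q, hq, hz⟩ := hfrac z
  exact ⟨p, q, (eq_div_iff hq).2 hz⟩

omit [IsAlgClosed K] in
private theorem extend_surj (G : Geo 𝔸 g) [IsDedekindDomain S] (a : S →ₐ[K] Φ)
    (hinj : Function.Injective a) (hfrac : ∀ z : Φ, ∃ p q : S, a q ≠ 0 ∧ z * a q = a p) :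
    Function.Surjective (𝔸.map a) := by
  let _ : Algebra S Φ := a.toRingHom.toAlgebra
  have : IsScalarTower K S Φ := IsScalarTower.of_algebraMap_eq fun c => (a.commutes c).symm
  have : IsFractionRing S Φ := extend_isFractionRing a hinj hfrac
  have h := G.ded S Φ
  have e : IsScalarTower.toAlgHom K S Φ = a := AlgHom.ext fun _ => rfl
  rwa [e] at h

omit [IsAlgClosed K] in
private theorem extend_inj (G : Geo 𝔸 g) [IsDomain S] (a : S →ₐ[K] Φ)
    (hinj : Function.Injective a) (hfrac : ∀ z : Φ, ∃ p q : S, a q ≠ 0 ∧ z * a q = a p) :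
    Function.Injective (𝔸.map a) := by
  let _ : Algebra S Φ := a.toRingHom.toAlgebra
  have : IsScalarTower K S Φ := IsScalarTower.of_algebraMap_eq fun c => (a.commutes c).symm
  have : IsFractionRing S Φ := extend_isFractionRing a hinj hfrac
  have h := G.sep S Φ
  have e : IsScalarTower.toAlgHom K S Φ = a := AlgHom.ext fun _ => rfl
  rwa [e] at h

end frac

section chart

variable {B B01 : Type u} [CommRing B] [Algebra K B] [CommRing B01] [Algebra K B01] [IsDomain B01]

omit [IsAlgClosed K] in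
/-- the fraction property of one chart -/
private theorem extend_frac_chart (j : B →ₐ[K] B01) (x : B) (hx : j x ≠ 0)
    (loc : ∀ b : B01, ∃ (n : ℕ) (a : B), b * j x ^ n = j a) (z : FractionRing B01) :
    ∃ p q : B, algebraMap B01 (FractionRing B01) (j q) ≠ 0 ∧
      z * algebraMap B01 (FractionRing B01) (j q) = algebraMap B01 (FractionRing B01) (j p) := by
  have hinj : Function.Injective (algebraMap B01 (FractionRing B01)) :=
    IsFractionRing.injective B01 (FractionRing B01)
  obtain ⟨b, c, hc, rfl⟩ := IsFractionRing.div_surjective (A := B01) z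
  have hc0 : c ≠ 0 := nonZeroDivisors.ne_zero hc
  have hc1 : algebraMap B01 (FractionRing B01) c ≠ 0 := (map_ne_zero_iff _ hinj).2 hc0
  obtain ⟨n, p, hp⟩ := loc b
  obtain ⟨m, q, hq⟩ := loc c
  refine ⟨p * x ^ m, q * x ^ n, ?_, ?_⟩
  · rw [map_ne_zero_iff _ hinj, map_mul, map_pow, ← hq]
    exact mul_ne_zero (mul_ne_zero hc0 (pow_ne_zero _ hx)) (pow_ne_zero _ hx)
  · rw [map_mul j, map_mul j, map_pow, map_pow, ← hq, ← hp]
    simp only [map_mul, map_pow]
    field_simp

omit [IsAlgClosed K] [IsDomain B01] in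
/-- the composite `K ⊗ B → K ⊗ B01 → B01` is `j ∘ lid` -/
private theorem extend_lid_map (j : B →ₐ[K] B01) (t : K ⊗[K] B) :
    Algebra.TensorProduct.lid K B01 (Algebra.TensorProduct.map (AlgHom.id K K) j t) =
      j (Algebra.TensorProduct.lid K B t) := by
  have h : ((Algebra.TensorProduct.lid K B01).toAlgHom.comp
      (Algebra.TensorProduct.map (AlgHom.id K K) j)) =
      j.comp (Algebra.TensorProduct.lid K B).toAlgHom := by
    ext b
    simp
  exact DFunLike.congr_fun h t

end chart

omit [IsAlgClosed K] in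
private theorem extend_chart_props (C : Curve K) {B : Type u} [CommRing B] [Algebra K B]
    (j : B →ₐ[K] C.B01) (hj : Function.Injective j) (x : B) (hx : j x ≠ 0)
    (loc : ∀ b : C.B01, ∃ (n : ℕ) (a : B), b * j x ^ n = j a) :
    Function.Injective (C.toFF.comp (Algebra.TensorProduct.map (AlgHom.id K K) j)) ∧
      ∀ z : C.FF, ∃ p q : K ⊗[K] B,
        (C.toFF.comp (Algebra.TensorProduct.map (AlgHom.id K K) j)) q ≠ 0 ∧
        z * (C.toFF.comp (Algebra.TensorProduct.map (AlgHom.id K K) j)) q =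
          (C.toFF.comp (Algebra.TensorProduct.map (AlgHom.id K K) j)) p := by
  have hform : ∀ t : K ⊗[K] B, (C.toFF.comp (Algebra.TensorProduct.map (AlgHom.id K K) j)) t =
      algebraMap C.B01 C.FF (j (Algebra.TensorProduct.lid K B t)) := by
    intro t
    rw [← extend_lid_map j t]
    rfl
  constructor
  · intro t t' h
    rw [hform, hform] at h
    exact (Algebra.TensorProduct.lid K B).injective
      (hj (IsFractionRing.injective C.B01 C.FF h))
  · intro z
    obtain ⟨p, q, hq, hz⟩ := extend_frac_chart j x hx loc z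
    refine ⟨(Algebra.TensorProduct.lid K B).symm p, (Algebra.TensorProduct.lid K B).symm q, ?_, ?_⟩
    · rw [hform, AlgEquiv.apply_symm_apply]
      exact hq
    · rw [hform, hform, AlgEquiv.apply_symm_apply, AlgEquiv.apply_symm_apply]
      exact hz

theorem Geo.exists_cpt (G : Geo 𝔸 g) (C : Curve K) (u : 𝔸.pt C.FF) :
    ∃ f : CPt C 𝔸.toPtF K, f.gen = u := by
  have hx : C.j0 C.x ≠ 0 := left_ne_zero_of_mul_eq_one C.xy
  have hy : C.j1 C.y ≠ 0 := right_ne_zero_of_mul_eq_one C.xy
  obtain ⟨hi0, hf0⟩ := extend_chart_props C C.j0 C.j0_inj C.x hx C.loc0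
  obtain ⟨hi1, hf1⟩ := extend_chart_props C C.j1 C.j1_inj C.y hy C.loc1
  have hD0 : IsDedekindDomain (C.S0 K) :=
    extend_isDedekindDomain_of_equiv (Algebra.TensorProduct.lid K C.B0).symm.toRingEquiv
  have hD1 : IsDedekindDomain (C.S1 K) :=
    extend_isDedekindDomain_of_equiv (Algebra.TensorProduct.lid K C.B1).symm.toRingEquiv
  have hD01 : IsDomain (C.S01 K) := 
    MulEquiv.isDomain C.B01 (Algebra.TensorProduct.lid K C.B01).toRingEquiv.toMulEquiv
  obtain ⟨u0, hu0⟩ := extend_surj G (C.toFF.comp (C.J0 K)) hi0 hf0 u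
  obtain ⟨u1, hu1⟩ := extend_surj G (C.toFF.comp (C.J1 K)) hi1 hf1 u
  have hi01 : Function.Injective C.toFF := by
    intro t t' h
    exact (Algebra.TensorProduct.lid K C.B01).injective (IsFractionRing.injective C.B01 C.FF h)
  have hf01 : ∀ z : C.FF, ∃ p q : C.S01 K, C.toFF q ≠ 0 ∧ z * C.toFF q = C.toFF p := by
    intro z
    obtain ⟨b, c, hc, rfl⟩ := IsFractionRing.div_surjective (A := C.B01) z
    have hc1 : algebraMap C.B01 C.FF c ≠ 0 :=
      (map_ne_zero_iff _ (IsFractionRing.injective C.B01 C.FF)).2 (nonZeroDivisors.ne_zero hc)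
    have hform : ∀ b : C.B01, C.toFF ((Algebra.TensorProduct.lid K C.B01).symm b) =
        algebraMap C.B01 C.FF b := by
      intro b
      show algebraMap C.B01 C.FF ((Algebra.TensorProduct.lid K C.B01)
        ((Algebra.TensorProduct.lid K C.B01).symm b)) = _
      rw [AlgEquiv.apply_symm_apply]
    refine ⟨(Algebra.TensorProduct.lid K C.B01).symm b,
      (Algebra.TensorProduct.lid K C.B01).symm c, ?_, ?_⟩
    · rw [hform]
      exact hc1
    · rw [hform, hform, div_mul_cancel₀ _ hc1]
  refine ⟨⟨u0, u1, 𝔸.map (C.J0 K) u0, rfl, ?_⟩, ?_⟩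
  · apply extend_inj G C.toFF hi01 hf01
    show 𝔸.map C.toFF (𝔸.map (C.J1 K) u1) = 𝔸.map C.toFF (𝔸.map (C.J0 K) u0)
    rw [← 𝔸.map_comp, ← 𝔸.map_comp]
    exact hu1.trans hu0.symm
  · show 𝔸.map C.toFF (𝔸.map (C.J0 K) u0) = u
    rw [← 𝔸.map_comp]
    exact hu0

end Fermat.Agent.S26
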