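/-
S26 / T6 / MainAux : assembly of block T6 (`exists_curves`) from the contracts T6-1 (chain of
subvarieties), CB-1c (curve of a function field) and T6-3 (rational maps from curves extend),
which are taken as explicit hypotheses here.  No sorry.
-/
import Fermat.Agent.S26.AV.DG1

set_option autoImplicit false
set_option linter.unusedSectionVars false

open scoped TensorProduct

universe u

namespace Fermat.Agent.S26

variable {K : Type u} [Field K] [IsAlgClosed K] {𝔸 : AVF K} {g : ℕ}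

/-- the degree of a generic point (`= DG-2 Geo.deg_eq`). -/
theorem Main_deg_eq (G : Geo 𝔸 g) {Φ : Type u} [Field Φ] [Algebra K Φ] (j : G.FF →ₐ[K] Φ) :
    G.deg (𝔸.map j G.η) = Module.finrank j.fieldRange Φ := by
  have h : ∃ j' : G.FF →ₐ[K] Φ, 𝔸.map j' G.η = 𝔸.map j G.η := ⟨j, rfl⟩
  unfold Geo.deg
  rw [dif_pos h, G.η_ext _ _ h.choose_spec]

/-- one curve: a prime `𝔭` of `R₀` whose residue field is a function field of one variable gives a
curve `C`, a morphism `f : C → A` and an embedding of `K(C)` in any field `Φ` receiving `R₀ / 𝔭`. -/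
theorem Main_curve (G : Geo 𝔸 g)
    (hcurve : ∀ (F : Type u) [Field F] [Algebra K F] (t : F) (_ : Transcendental K t)
      [FiniteDimensional (IntermediateField.adjoin K {t}) F]
      [Algebra.IsSeparable (IntermediateField.adjoin K {t}) F],
      ∃ C : Curve K, Nonempty (C.FF ≃ₐ[K] F))
    (hcpt : ∀ (C : Curve K) (u : 𝔸.pt C.FF), ∃ f : CPt C 𝔸.toPtF K, f.gen = u)
    {Φ : Type u} [Field Φ] [Algebra K Φ] (𝔭 : Ideal G.R₀) [𝔭.IsPrime] (ρ : G.R₀ →ₐ[K] Φ)
    (hker : RingHom.ker ρ = 𝔭) (t : G.R₀ ⧸ 𝔭) (ht : Transcendental K t)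
    (hF : ∀ (F : Type u) [Field F] [Algebra K F] [Algebra (G.R₀ ⧸ 𝔭) F]
      [IsScalarTower K (G.R₀ ⧸ 𝔭) F] [IsFractionRing (G.R₀ ⧸ 𝔭) F],
      FiniteDimensional (IntermediateField.adjoin K {algebraMap (G.R₀ ⧸ 𝔭) F t}) F ∧
      Algebra.IsSeparable (IntermediateField.adjoin K {algebraMap (G.R₀ ⧸ 𝔭) F t}) F) :
    ∃ (C : Curve K) (f : CPt C 𝔸.toPtF K) (ι : C.FF →ₐ[K] Φ),
      𝔸.map ι f.gen = 𝔸.map ρ G.ι₀ ∧ Set.range ρ ⊆ Set.range ι := by
  obtain ⟨hfd, hsep⟩ := hF (G.kV 𝔭)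
  have ht' : Transcendental K (algebraMap (G.R₀ ⧸ 𝔭) (G.kV 𝔭) t) :=
    (transcendental_algebraMap_iff (IsFractionRing.injective _ _)).2 ht
  obtain ⟨C, ⟨e⟩⟩ := hcurve (G.kV 𝔭) _ ht'
  let ρb : G.R₀ ⧸ 𝔭 →ₐ[K] Φ := Ideal.Quotient.liftₐ 𝔭 ρ (fun a ha => by
    rw [← hker] at ha
    exact ha)
  have hρb : Function.Injective ρb := by
    rw [injective_iff_map_eq_zero]
    intro x hx
    obtain ⟨a, rfl⟩ := Ideal.Quotient.mk_surjective x
    have h0 : ρ a = 0 := hx
    rw [Ideal.Quotient.eq_zero_iff_mem, ← hker]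
    exact h0
  let lam : G.kV 𝔭 →ₐ[K] Φ := IsFractionRing.liftAlgHom hρb
  have hlam : ∀ a, lam (G.toKV 𝔭 a) = ρ a := fun a =>
    IsFractionRing.lift_algebraMap hρb (Ideal.Quotient.mk 𝔭 a)
  obtain ⟨f, hf⟩ := hcpt C (𝔸.map ((e.symm : G.kV 𝔭 →ₐ[K] C.FF).comp (G.toKV 𝔭)) G.ι₀)
  refine ⟨C, f, lam.comp (e : C.FF →ₐ[K] G.kV 𝔭), ?_, ?_⟩
  · rw [hf, ← 𝔸.map_comp]
    congr 1
    apply AlgHom.ext
    intro a
    simp [hlam]
  · rintro _ ⟨a, rfl⟩
    exact ⟨e.symm (G.toKV 𝔭 a), by simp [hlam]⟩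

/-- **assembly of T6** from its contracts. -/
theorem Main_exists_curves_of (G : Geo 𝔸 g)
    (hchain : ∃ (D : Type u) (_ : CommRing D) (_ : IsDomain D) (_ : Algebra K D)
      (_ : Algebra.FiniteType K D)
      (e : D →ₐ[K] K) (𝔭 : Fin g → Ideal G.R₀) (r : Fin g → (G.R₀ →ₐ[K] D)) (w : G.R₀ →ₐ[K] D),
      Algebra.trdeg K D ≤ g ∧
      (∀ i, RingHom.ker (r i) = 𝔭 i) ∧
      (∀ (Φ : Type u) [Field Φ] [Algebra K Φ] [Algebra D Φ] [IsScalarTower K D Φ]
        [IsFractionRing D Φ], IntermediateField.adjoin K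
          (⋃ i, Set.range fun z => algebraMap D Φ (r i z)) = ⊤) ∧
      𝔸.map w G.ι₀ = ∑ i, 𝔸.map (r i) G.ι₀ ∧
      e.comp w = G.ε₀ ∧
      (g : Cardinal.{u}) ≤ Algebra.trdeg K (G.R₀ ⧸ RingHom.ker w) ∧
      ∀ i, ∃ (_ : (𝔭 i).IsPrime) (t : G.R₀ ⧸ 𝔭 i), Transcendental K t ∧
        ∀ (F : Type u) [Field F] [Algebra K F] [Algebra (G.R₀ ⧸ 𝔭 i) F]
          [IsScalarTower K (G.R₀ ⧸ 𝔭 i) F] [IsFractionRing (G.R₀ ⧸ 𝔭 i) F],
          FiniteDimensional (IntermediateField.adjoin K {algebraMap (G.R₀ ⧸ 𝔭 i) F t}) F ∧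
          Algebra.IsSeparable (IntermediateField.adjoin K {algebraMap (G.R₀ ⧸ 𝔭 i) F t}) F)
    (hcurve : ∀ (F : Type u) [Field F] [Algebra K F] (t : F) (_ : Transcendental K t)
      [FiniteDimensional (IntermediateField.adjoin K {t}) F]
      [Algebra.IsSeparable (IntermediateField.adjoin K {t}) F],
      ∃ C : Curve K, Nonempty (C.FF ≃ₐ[K] F))
    (hcpt : ∀ (C : Curve K) (u : 𝔸.pt C.FF), ∃ f : CPt C 𝔸.toPtF K, f.gen = u) :
    ∃ (C : Fin g → Curve K) (f : ∀ i, CPt (C i) 𝔸.toPtF K) (Φ : Type u) (_ : Field Φ)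
      (_ : Algebra K Φ) (ι : ∀ i, (C i).FF →ₐ[K] Φ),
      Algebra.trdeg K Φ = g ∧
      IntermediateField.adjoin K (⋃ i, Set.range (ι i)) = ⊤ ∧
      0 < G.deg (∑ i, 𝔸.map (ι i) (f i).gen) := by
  obtain ⟨D, _, _, _, _, e, 𝔭, r, w, hD, hker, hgen, hsum, -, htr, hcur⟩ := hchain
  -- `w` is injective
  have hR₀ : Algebra.trdeg K G.R₀ = g := by
    rw [← trdeg_eq_of_isFractionRing K G.R₀ G.FF, G.trdeg_FF]
  have hw : Function.Injective w := by
    rw [← AlgHom.coe_toRingHom, RingHom.injective_iff_ker_eq_bot]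
    by_contra hne
    have hprime : (RingHom.ker w.toRingHom).IsPrime := RingHom.ker_isPrime _
    have h1 := trdeg_quotient_lt K G.R₀ (by rw [hR₀]; exact Cardinal.natCast_lt_aleph0)
      (RingHom.ker w.toRingHom) hne
    rw [hR₀] at h1
    exact absurd htr (not_le.2 h1)
  let a : D →ₐ[K] FractionRing D := IsScalarTower.toAlgHom K D (FractionRing D)
  have ha : Function.Injective a := IsFractionRing.injective D (FractionRing D)
  have key : ∀ i, ∃ (C : Curve K) (f : CPt C 𝔸.toPtF K) (ι : C.FF →ₐ[K] FractionRing D),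
      𝔸.map ι f.gen = 𝔸.map (a.comp (r i)) G.ι₀ ∧ Set.range (a.comp (r i)) ⊆ Set.range ι := by
    intro i
    obtain ⟨hp, t, ht, hF⟩ := hcur i
    refine Main_curve G hcurve hcpt (𝔭 i) (a.comp (r i)) ?_ t ht hF
    rw [← hker i]
    ext x
    rw [RingHom.mem_ker, RingHom.mem_ker]
    change a (r i x) = 0 ↔ r i x = 0
    rw [map_eq_zero_iff a ha]
  choose C f ι h1 h2 using key
  let j : G.FF →ₐ[K] FractionRing D := IsFractionRing.liftAlgHom (g := a.comp w) (ha.comp hw)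
  have hj : j.comp (IsScalarTower.toAlgHom K G.R₀ G.FF) = a.comp w := DG1_liftAlgHom_comp _
  have hsum' : ∑ i, 𝔸.map (ι i) (f i).gen = 𝔸.map j G.η := by
    rw [G.DG1_map_η, hj, 𝔸.map_comp, hsum]
    change _ = 𝔸.mapHom a _
    rw [map_sum]
    refine Finset.sum_congr rfl fun i _ => ?_
    rw [h1, 𝔸.map_comp]
    rfl
  have hΦle : Algebra.trdeg K (FractionRing D) ≤ g := by
    rw [trdeg_eq_of_isFractionRing K D (FractionRing D)]
    exact hD
  have hΦge : (g : Cardinal.{u}) ≤ Algebra.trdeg K (FractionRing D) := by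
    rw [← G.trdeg_FF]
    exact trdeg_le_of_injective j j.toRingHom.injective
  have hΦ : Algebra.trdeg K (FractionRing D) = g := le_antisymm hΦle hΦge
  refine ⟨C, f, FractionRing D, inferInstance, inferInstance, ι, hΦ, ?_, ?_⟩
  · rw [eq_top_iff, ← hgen (FractionRing D)]
    apply IntermediateField.adjoin.mono
    exact Set.iUnion_mono fun i => h2 i
  · rw [hsum', Main_deg_eq]
    have hE : Algebra.trdeg K j.fieldRange = g := by
      rw [← j.equivFieldRange.trdeg_eq, G.trdeg_FF]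
    have hadd := trdeg_add_eq K j.fieldRange (A := FractionRing D)
    rw [hE, hΦ] at hadd
    have h0 : Algebra.trdeg j.fieldRange (FractionRing D) = 0 :=
      Cardinal.eq_of_add_eq_add_left (by rw [hadd, add_zero]) Cardinal.natCast_lt_aleph0
    have halg : Algebra.IsAlgebraic j.fieldRange (FractionRing D) :=
      trdeg_eq_zero_iff.1 h0
    have hess1 : Algebra.EssFiniteType D (FractionRing D) :=
      Algebra.EssFiniteType.of_isLocalization (FractionRing D) (nonZeroDivisors D)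
    have hess2 : Algebra.EssFiniteType K (FractionRing D) :=
      Algebra.EssFiniteType.comp K D (FractionRing D)
    have hess3 : Algebra.EssFiniteType j.fieldRange (FractionRing D) :=
      Algebra.EssFiniteType.of_comp K j.fieldRange (FractionRing D)
    have hfin : Module.Finite j.fieldRange (FractionRing D) :=
      Algebra.finite_of_essFiniteType_of_isAlgebraic
    exact Module.finrank_pos

end Fermat.Agent.S26
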