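/-
S26 / T6 / Main : block T6 (`exists_curves`), final assembly.
-/
import Fermat.Agent.S26.T6.MainAux
import Fermat.Agent.S26.T6.Chain
import Fermat.Agent.S26.T6.CurveOfField
import Fermat.Agent.S26.T6.Extend

set_option autoImplicit false

open scoped TensorProduct

universe u

namespace Fermat.Agent.S26

variable {K : Type u} [Field K] [IsAlgClosed K] {𝔸 : AVF K} {g : ℕ}

/-- `g` curves through the origin whose sum is generic -/
theorem exists_curves (G : Geo 𝔸 g) :
    ∃ (C : Fin g → Curve K) (f : ∀ i, CPt (C i) 𝔸.toPtF K) (Φ : Type u) (_ : Field Φ)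
      (_ : Algebra K Φ) (ι : ∀ i, (C i).FF →ₐ[K] Φ),
      Algebra.trdeg K Φ = g ∧
      IntermediateField.adjoin K (⋃ i, Set.range (ι i)) = ⊤ ∧
      0 < G.deg (∑ i, 𝔸.map (ι i) (f i).gen) :=
  Main_exists_curves_of G (G.exists_chain g le_rfl)
    (fun F _ _ t ht _ _ => exists_curve_of_field F t ht) G.exists_cpt

end Fermat.Agent.S26
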